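import Fermat.Agent.DS.N0.HeckeGamma1
import Fermat.Prelude.Def_FLTPrelim_Modularity
import Fermat.Prelude.Thm_UpperHalfPlane_qCoeff_heckeT
import Fermat.Prelude.Thm_UpperHalfPlane_qCoeff_heckeU
import Fermat.Prelude.Thm_ModularForm_periodic_heckeT_comp_ofComplex
import Fermat.Prelude.Thm_ModularForm_periodic_heckeU_comp_ofComplex
import Fermat.Prelude.Thm_ModularForm_isBoundedAtImInfty_heckeT
import Fermat.Prelude.Thm_ModularForm_isBoundedAtImInfty_heckeU
import Fermat.Prelude.Thm_ModularForm_mdifferentiable_heckeT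
import Fermat.Prelude.Thm_ModularForm_mdifferentiable_heckeU

/-!
# S48 (Deligne–Serre), node (N0), part B2: `q`-coefficients of `T_p` on `Γ₁(N)`

`NiceAtInfty f` : `f` is `1`-periodic, holomorphic and bounded at `i∞` (so it has a
`q`-expansion); closed under `+`, `-`, `•`, `heckeU`, `heckeT`, `heckeT1`.

`qCoeff_heckeT1` : `a_n(T_p f) = a_{np}(f) + [p ∣ n] p^{k-1} a_{n/p}(f ∣ σ)`.
-/

namespace Fermat.Agent.DS.N0

open Matrix.SpecialLinearGroup UpperHalfPlane ModularForm CongruenceSubgroup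
open scoped MatrixGroups ModularForm Manifold

/-- `f` is `1`-periodic, holomorphic and bounded at `i∞`. -/
structure NiceAtInfty (f : ℍ → ℂ) : Prop where
  per : Function.Periodic (f ∘ ofComplex) 1
  hol : MDifferentiable 𝓘(ℂ) 𝓘(ℂ) f
  bdd : IsBoundedAtImInfty f

namespace NiceAtInfty

variable {f g : ℍ → ℂ}

theorem analyticAt (hf : NiceAtInfty f) : AnalyticAt ℂ (cuspFunction 1 f) 0 :=
  analyticAt_cuspFunction_zero one_pos hf.per hf.hol hf.bdd

theorem hasSum (hf : NiceAtInfty f) (τ : ℍ) :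
    HasSum (fun m : ℕ ↦ ModularFormClass.qCoeff f m • Function.Periodic.qParam 1 τ ^ m) (f τ) :=
  hasSum_qExpansion one_pos hf.per hf.hol hf.bdd τ

theorem add (hf : NiceAtInfty f) (hg : NiceAtInfty g) : NiceAtInfty (f + g) where
  per := by
    have : (f + g) ∘ ofComplex = f ∘ ofComplex + g ∘ ofComplex := rfl
    rw [this]; exact hf.per.add hg.per
  hol := hf.hol.add hg.hol
  bdd := hf.bdd.add hg.bdd

theorem smul (c : ℂ) (hf : NiceAtInfty f) : NiceAtInfty (c • f) where
  per := by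
    have : (c • f) ∘ ofComplex = c • (f ∘ ofComplex) := rfl
    rw [this]; exact hf.per.smul c
  hol := hf.hol.const_smul c
  bdd := hf.bdd.const_smul_left c

theorem neg (hf : NiceAtInfty f) : NiceAtInfty (-f) := by
  have : -f = (-1 : ℂ) • f := by simp
  rw [this]; exact hf.smul _

theorem sub (hf : NiceAtInfty f) (hg : NiceAtInfty g) : NiceAtInfty (f - g) := by
  rw [sub_eq_add_neg]; exact hf.add hg.neg

theorem heckeU (hf : NiceAtInfty f) (k : ℤ) (p : ℕ) : NiceAtInfty (heckeU k p f) where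
  per := ModularForm.periodic_heckeU_comp_ofComplex hf.per k p
  hol := ModularForm.mdifferentiable_heckeU hf.hol k p
  bdd := ModularForm.isBoundedAtImInfty_heckeU hf.bdd k p

theorem heckeT (hf : NiceAtInfty f) (k : ℤ) (p : ℕ) : NiceAtInfty (heckeT k p f) where
  per := ModularForm.periodic_heckeT_comp_ofComplex hf.per k p
  hol := ModularForm.mdifferentiable_heckeT hf.hol k p
  bdd := ModularForm.isBoundedAtImInfty_heckeT hf.bdd k p

theorem slash_heckeDiagMatrix (hf : NiceAtInfty f) (k : ℤ) (p : ℕ) :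
    NiceAtInfty (f ∣[k] heckeDiagMatrix p) := by
  have : f ∣[k] heckeDiagMatrix p = ModularForm.heckeT k p f - ModularForm.heckeU k p f := by
    rw [heckeT_eq_heckeU_add, add_sub_cancel_left]
  rw [this]; exact (hf.heckeT k p).sub (hf.heckeU k p)

theorem of_modularFormClass {F : Type*} [FunLike F ℍ ℂ] {Γ : Subgroup (GL (Fin 2) ℝ)} {k : ℤ}
    [ModularFormClass F Γ k] (f : F) (hΓ : (1 : ℝ) ∈ Γ.strictPeriods) : NiceAtInfty f where
  per := SlashInvariantFormClass.periodic_comp_ofComplex f hΓ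
  hol := ModularFormClass.holo f
  bdd :=
    have : Fact (IsCusp OnePoint.infty Γ) := ⟨Γ.isCusp_of_mem_strictPeriods one_pos hΓ⟩
    ModularFormClass.bdd_at_infty f

theorem qCoeff_add (hf : NiceAtInfty f) (hg : NiceAtInfty g) (n : ℕ) :
    ModularFormClass.qCoeff (f + g) n = ModularFormClass.qCoeff f n + ModularFormClass.qCoeff g n := by
  unfold ModularFormClass.qCoeff
  rw [qExpansion_add hf.analyticAt hg.analyticAt, map_add]

theorem qCoeff_sub (hf : NiceAtInfty f) (hg : NiceAtInfty g) (n : ℕ) :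
    ModularFormClass.qCoeff (f - g) n = ModularFormClass.qCoeff f n - ModularFormClass.qCoeff g n := by
  unfold ModularFormClass.qCoeff
  rw [qExpansion_sub hf.analyticAt hg.analyticAt, map_sub]

theorem qCoeff_smul (c : ℂ) (hf : NiceAtInfty f) (n : ℕ) :
    ModularFormClass.qCoeff (c • f) n = c * ModularFormClass.qCoeff f n := by
  unfold ModularFormClass.qCoeff
  rw [qExpansion_smul hf.analyticAt, PowerSeries.coeff_smul, smul_eq_mul]

/-- two nice functions with the same `q`-coefficients are equal -/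
theorem ext_qCoeff (hf : NiceAtInfty f) (hg : NiceAtInfty g)
    (h : ∀ n, ModularFormClass.qCoeff f n = ModularFormClass.qCoeff g n) : f = g := by
  funext τ
  have h1 := hf.hasSum τ
  have h2 := hg.hasSum τ
  simp only [h] at h1
  exact h1.unique h2

theorem eq_zero_of_qCoeff_eq_zero (hf : NiceAtInfty f)
    (h : ∀ n, ModularFormClass.qCoeff f n = 0) : f = 0 := by
  funext τ
  have h1 := hf.hasSum τ
  simp only [h, zero_smul] at h1
  exact h1.unique hasSum_zero

theorem qCoeff_slash_heckeDiagMatrix (hf : NiceAtInfty f) (k : ℤ) {p : ℕ} (hp : p ≠ 0) (n : ℕ) :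
    ModularFormClass.qCoeff (f ∣[k] heckeDiagMatrix p) n =
      if p ∣ n then (p : ℂ) ^ (k - 1) * ModularFormClass.qCoeff f (n / p) else 0 := by
  have : f ∣[k] heckeDiagMatrix p = ModularForm.heckeT k p f - ModularForm.heckeU k p f := by
    rw [heckeT_eq_heckeU_add, add_sub_cancel_left]
  rw [this, qCoeff_sub (hf.heckeT k p) (hf.heckeU k p),
    UpperHalfPlane.qCoeff_heckeT hf.per hf.hol hf.bdd k hp,
    UpperHalfPlane.qCoeff_heckeU hf.per hf.hol hf.bdd k hp, coeffHeckeT_apply, coeffHeckeU_apply,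
    add_sub_cancel_left]

end NiceAtInfty

/-- `T_p` on `Γ₁(N)` preserves niceness provided `f ∣ σ` is nice. -/
theorem NiceAtInfty.heckeT1 {f : ℍ → ℂ} (hf : NiceAtInfty f) (k : ℤ) (p : ℕ) (σ : SL(2, ℤ))
    (hfσ : NiceAtInfty (f ∣[k] mapGL ℝ σ)) : NiceAtInfty (heckeT1 k p σ f) :=
  (hf.heckeU k p).add (hfσ.slash_heckeDiagMatrix k p)

/-- **`q`-coefficients of `T_p` on `Γ₁(N)`**:
`a_n(T_p f) = a_{np}(f) + [p ∣ n] p^{k-1} a_{n/p}(⟨p⟩ f)`. -/
theorem qCoeff_heckeT1 {f : ℍ → ℂ} (hf : NiceAtInfty f) (k : ℤ) {p : ℕ} (hp : p ≠ 0)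
    (σ : SL(2, ℤ)) (hfσ : NiceAtInfty (f ∣[k] mapGL ℝ σ)) (n : ℕ) :
    ModularFormClass.qCoeff (heckeT1 k p σ f) n =
      ModularFormClass.qCoeff f (n * p) +
        if p ∣ n then (p : ℂ) ^ (k - 1) * ModularFormClass.qCoeff (f ∣[k] mapGL ℝ σ) (n / p)
        else 0 := by
  unfold Fermat.Agent.DS.N0.heckeT1
  rw [NiceAtInfty.qCoeff_add (hf.heckeU k p) (hfσ.slash_heckeDiagMatrix k p),
    UpperHalfPlane.qCoeff_heckeU hf.per hf.hol hf.bdd k hp, coeffHeckeU_apply,
    hfσ.qCoeff_slash_heckeDiagMatrix k hp]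

end Fermat.Agent.DS.N0
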