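import Fermat.Agent.DS.N0.EllipticRigidity
import Fermat.Agent.DS.N0.HeckeQExp

/-!
# S48 (Deligne–Serre), node (N0): the nebentypus is forced by the Hecke relations

Hypotheses of S48: `f ∈ S₁(Γ₁(N))` and `a_{pn} + ε(p)[p ∣ n] a_{n/p} = a_p a_n` for `p ∤ N`.

* `slash_eq_of_prime` : for a prime `p ∤ N` with `N < 4p` and `σ ∈ Γ₀(N)`, `σ₁₁ ≡ p`:
  `f ∣ σ = ε(p) f`.  Proof: `G := T_p f - a_p f ∈ S₁(Γ₁(N))` has `q`-expansion supported on
  `p ℕ` (`= V_p(⟨p⟩f - ε(p)f)`), so it is invariant under `τ ↦ τ + 1/p` and under `[1,0;N,1]`, hence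
  under the elliptic element `[1 - N/p, -1/p; N, 1]` of trace `2 - N/p ∈ (-2, 2) \ ℤ`, which has
  infinite order (Niven); `EllipticRigidity` gives `G = 0`.
* `slash_eq_of_mem_Gamma0` : `f ∣ σ = ε(σ₁₁) f` for all `σ ∈ Γ₀(N)` (Dirichlet's theorem).
* `heckeT1_eq_smul` : `T_p f = a_p f` for all primes `p ∤ N`.
-/

namespace Fermat.Agent.DS.N0

open Matrix.SpecialLinearGroup UpperHalfPlane ModularForm CongruenceSubgroup Real
open scoped MatrixGroups ModularForm Manifold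

/-- A nice function whose `q`-expansion is supported on multiples of `p` is invariant under
`τ ↦ τ + 1/p`. -/
theorem slash_translate_of_qCoeff_support {G : ℍ → ℂ} (hG : NiceAtInfty G) (k : ℤ) {p : ℕ}
    (hp : p ≠ 0) (hsupp : ∀ n, ¬ p ∣ n → ModularFormClass.qCoeff G n = 0) :
    G ∣[k] glOfDetOne 1 (1 / p) 0 1 (by ring) = G := by
  funext τ
  rw [slash_glOfDetOne_apply]
  set τ' : ℍ := glOfDetOne 1 (1 / p) 0 1 (by ring) • τ with hτ'
  have hcoe : (τ' : ℂ) = τ + 1 / p := by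
    rw [hτ', coe_glOfDetOne_smul]
    push_cast
    ring
  have h1 := hG.hasSum τ'
  have h2 := hG.hasSum τ
  have hterm : ∀ m : ℕ, ModularFormClass.qCoeff G m • Function.Periodic.qParam 1 τ' ^ m =
      ModularFormClass.qCoeff G m • Function.Periodic.qParam 1 τ ^ m := by
    intro m
    by_cases hm : p ∣ m
    · obtain ⟨m', rfl⟩ := hm
      congr 1
      rw [Function.Periodic.qParam, Function.Periodic.qParam, hcoe, ← Complex.exp_nat_mul,
        ← Complex.exp_nat_mul]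
      have hp' : (p : ℂ) ≠ 0 := by exact_mod_cast hp
      have : ((p * m' : ℕ) : ℂ) * (2 * π * Complex.I * ((τ : ℂ) + 1 / p) / (1 : ℝ)) =
          ((p * m' : ℕ) : ℂ) * (2 * π * Complex.I * (τ : ℂ) / (1 : ℝ)) +
            (m' : ℂ) * (2 * π * Complex.I) := by
        push_cast
        field_simp
      rw [this, Complex.exp_add, Complex.exp_nat_mul_two_pi_mul_I, mul_one]
    · rw [hsupp m hm, zero_smul, zero_smul]
  simp only [hterm] at h1
  rw [h1.unique h2]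
  simp

/-- the elliptic element `[1 - N/p, -1/p; N, 1]` -/
theorem slash_elliptic_of_translate {G : ℍ → ℂ} (k : ℤ) {N p : ℕ}
    (h1 : G ∣[k] glOfDetOne 1 (1 / p) 0 1 (by ring) = G)
    (h2 : G ∣[k] glOfDetOne 1 0 N 1 (by ring) = G) :
    G ∣[k] glOfDetOne (1 - N / p) (-1 / p) N 1 (by ring) = G := by
  have hu : G ∣[k] glOfDetOne 1 (-1 / p) 0 1 (by ring) = G := by
    have hmul : glOfDetOne 1 (1 / p) 0 1 (by ring) * glOfDetOne 1 (-1 / p) 0 1 (by ring) =
        (1 : GL (Fin 2) ℝ) := by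
      rw [glOfDetOne_mul, ← glOfDetOne_one]
      apply glOfDetOne_ext <;> ring
    calc G ∣[k] glOfDetOne 1 (-1 / p) 0 1 (by ring)
        = (G ∣[k] glOfDetOne 1 (1 / p) 0 1 (by ring)) ∣[k] glOfDetOne 1 (-1 / p) 0 1 (by ring) := by
          rw [h1]
      _ = G := by rw [← SlashAction.slash_mul, hmul, SlashAction.slash_one]
  have hmul : glOfDetOne 1 (-1 / p) 0 1 (by ring) * glOfDetOne 1 0 N 1 (by ring) =
      glOfDetOne (1 - N / p) (-1 / p) N 1 (by ring) := by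
    rw [glOfDetOne_mul]
    apply glOfDetOne_ext <;> ring
  rw [← hmul, SlashAction.slash_mul, hu, h2]

/-- the angle of the elliptic element is an irrational multiple of `2π` when `p ∤ N`. -/
theorem irrational_arccos_div {N p : ℕ} (hp : p.Prime) (hpN : ¬ p ∣ N) (hN : 0 < N)
    (h4 : N < 4 * p) :
    Irrational (Real.arccos (1 - N / (2 * p)) / (2 * π)) ∧
      (1 - (N : ℝ) / p) + 1 = 2 * Real.cos (Real.arccos (1 - N / (2 * p))) := by
  have hp0 : (0 : ℝ) < p := by exact_mod_cast hp.pos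
  have hN' : (0 : ℝ) < N := by exact_mod_cast hN
  have h4' : (N : ℝ) < 4 * p := by exact_mod_cast h4
  have hr1 : (-1 : ℝ) ≤ 1 - N / (2 * p) := by
    have : (N : ℝ) / (2 * p) ≤ 2 := by
      rw [div_le_iff₀ (by positivity)]; linarith
    linarith
  have hr2 : 1 - (N : ℝ) / (2 * p) ≤ 1 := by
    have : 0 ≤ (N : ℝ) / (2 * p) := by positivity
    linarith
  have hcos : Real.cos (Real.arccos (1 - N / (2 * p))) = 1 - N / (2 * p) :=
    Real.cos_arccos hr1 hr2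
  constructor
  · rintro ⟨r, hr⟩
    have hθ : ∃ r' : ℚ, Real.arccos (1 - N / (2 * p)) = r' * π := by
      refine ⟨2 * r, ?_⟩
      have hpi : (2 * π) ≠ 0 := by positivity
      have := (eq_div_iff hpi).mp hr
      push_cast
      linarith
    have hq : ∃ q : ℚ, Real.cos (Real.arccos (1 - N / (2 * p))) = q := by
      refine ⟨1 - N / (2 * p), ?_⟩
      rw [hcos]; push_cast; ring
    have hniv := niven hθ hq
    rw [hcos] at hniv
    apply hpN
    have key : ∀ m : ℕ, (N : ℝ) = m * p → p ∣ N := by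
      intro m hm
      have : N = m * p := by exact_mod_cast hm
      exact ⟨m, by rw [this, mul_comm]⟩
    simp only [Set.mem_insert_iff, Set.mem_singleton_iff] at hniv
    rcases hniv with h | h | h | h | h
    · exact key 4 (by field_simp at h; push_cast; linarith)
    · exact key 3 (by field_simp at h; push_cast; linarith)
    · exact key 2 (by field_simp at h; push_cast; linarith)
    · exact key 1 (by field_simp at h; push_cast; linarith)
    · exact key 0 (by field_simp at h; push_cast; linarith)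
  · rw [hcos]
    field_simp
    ring

/-- the element `[1, 0; N, 1]` of `Γ₁(N)` -/
def lowerN (N : ℕ) : SL(2, ℤ) := ⟨!![1, 0; (N : ℤ), 1], by simp [Matrix.det_fin_two_of]⟩

theorem lowerN_mem (N : ℕ) : lowerN N ∈ Gamma1 N := by
  rw [mem_Gamma1_iff_dvd_and]
  constructor
  · show (N : ℤ) ∣ (N : ℤ)
    exact dvd_rfl
  · show (((1 : ℤ)) : ZMod N) = 1
    simp

theorem mapGL_lowerN (N : ℕ) : mapGL ℝ (lowerN N) = glOfDetOne 1 0 N 1 (by ring) := by
  apply Units.ext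
  rw [val_glOfDetOne]
  ext i j
  fin_cases i <;> fin_cases j <;> simp [lowerN]

theorem smul_slash_mapGL (k : ℤ) (c : ℂ) (f : ℍ → ℂ) (γ : SL(2, ℤ)) :
    (c • f) ∣[k] mapGL ℝ γ = c • (f ∣[k] mapGL ℝ γ) := by
  rw [ModularForm.smul_slash]
  congr 1
  have : (0 : ℝ) < ((mapGL ℝ γ).det : ℝ) := by simp
  rw [UpperHalfPlane.σ, if_pos this]
  rfl

section Nebentypus

variable {N : ℕ}

theorem nice_cusp {k : ℤ} (f : CuspForm (Gamma1 N) k) : NiceAtInfty (f : ℍ → ℂ) :=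
  NiceAtInfty.of_modularFormClass f (by simp)

theorem nice_cusp_slash [NeZero N] {k : ℤ} (f : CuspForm (Gamma1 N) k) {σ : SL(2, ℤ)}
    (hσ0 : (N : ℤ) ∣ σ 1 0) : NiceAtInfty ((f : ℍ → ℂ) ∣[k] mapGL ℝ σ) :=
  nice_cusp (cuspSlash f σ (conj_mem_Gamma1_GL hσ0))

theorem cusp_slash_Gamma1 {k : ℤ} (f : CuspForm (Gamma1 N) k) {γ : SL(2, ℤ)}
    (hγ : γ ∈ Gamma1 N) : (f : ℍ → ℂ) ∣[k] mapGL ℝ γ = f :=
  SlashInvariantFormClass.slash_action_eq f _ (Subgroup.mem_map_of_mem _ hγ)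

variable [NeZero N] (ε : DirichletCharacter ℂ N) (f : CuspForm (Gamma1 N) 1)
  (hT : ∀ p : ℕ, p.Prime → ¬ p ∣ N → ∀ n : ℕ,
    ModularFormClass.qCoeff f (p * n) +
        ε (p : ZMod N) * (if p ∣ n then ModularFormClass.qCoeff f (n / p) else 0) =
      ModularFormClass.qCoeff f p * ModularFormClass.qCoeff f n)

include hT

/-- **Nebentypus at one prime** `p ∤ N`, `N < 4p`: `f ∣ σ = ε(p) f` for `σ ∈ Γ₀(N)`,
`σ₁₁ ≡ p`. -/
theorem slash_eq_of_prime {p : ℕ} (hp : p.Prime) (hpN : ¬ p ∣ N) (h4 : N < 4 * p)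
    {σ : SL(2, ℤ)} (hσ0 : (N : ℤ) ∣ σ 1 0) (hσ1 : ((σ 1 1 : ℤ) : ZMod N) = (p : ZMod N)) :
    (f : ℍ → ℂ) ∣[(1 : ℤ)] mapGL ℝ σ = ε (p : ZMod N) • (f : ℍ → ℂ) := by
  have : Fact p.Prime := ⟨hp⟩
  have hf := nice_cusp f
  have hfσ := nice_cusp_slash f hσ0
  set ap := ModularFormClass.qCoeff f p with hap
  set G : ℍ → ℂ := heckeT1 1 p σ f - ap • (f : ℍ → ℂ) with hG
  have hT1nice := hf.heckeT1 1 p σ hfσ
  have hGnice : NiceAtInfty G := hT1nice.sub (hf.smul ap)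
  -- `q`-coefficients of `G`
  have hGq : ∀ n, ModularFormClass.qCoeff G n =
      (if p ∣ n then ModularFormClass.qCoeff ((f : ℍ → ℂ) ∣[(1 : ℤ)] mapGL ℝ σ) (n / p) else 0) -
        ε (p : ZMod N) * (if p ∣ n then ModularFormClass.qCoeff f (n / p) else 0) := by
    intro n
    rw [hG, NiceAtInfty.qCoeff_sub hT1nice (hf.smul ap), NiceAtInfty.qCoeff_smul ap hf,
      qCoeff_heckeT1 hf 1 hp.ne_zero σ hfσ]
    have := hT p hp hpN n
    rw [mul_comm p n] at this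
    simp only [sub_self, zpow_zero, one_mul]
    linear_combination this
  -- invariance under `Γ₁(N)`
  have hGinv : ∀ γ ∈ Gamma1 N, G ∣[(1 : ℤ)] mapGL ℝ γ = G := by
    intro γ hγ
    rw [hG, sub_eq_add_neg, SlashAction.add_slash, SlashAction.neg_slash, smul_slash_mapGL,
      cusp_slash_Gamma1 f hγ,
      heckeT1_slash 1 hpN σ hσ0 hσ1 f (fun γ hγ => cusp_slash_Gamma1 f hγ) γ hγ]
  -- invariance under `τ ↦ τ + 1/p`
  have hGtr := slash_translate_of_qCoeff_support hGnice 1 hp.ne_zero (fun n hn => by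
    rw [hGq n, if_neg hn, if_neg hn, mul_zero, sub_zero])
  have hGlow : G ∣[(1 : ℤ)] glOfDetOne 1 0 N 1 (by ring) = G := by
    rw [← mapGL_lowerN]; exact hGinv _ (lowerN_mem N)
  have hGell := slash_elliptic_of_translate 1 hGtr hGlow
  obtain ⟨hirr, htr⟩ := irrational_arccos_div hp hpN (Nat.pos_of_ne_zero (NeZero.ne N)) h4
  have hGcont : Continuous G := hGnice.hol.continuous
  have hG0 : G = 0 := eq_zero_of_slash_elliptic hGcont odd_one _ htr hirr hGell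
  -- conclusion
  have hh : NiceAtInfty ((f : ℍ → ℂ) ∣[(1 : ℤ)] mapGL ℝ σ - ε (p : ZMod N) • (f : ℍ → ℂ)) :=
    hfσ.sub (hf.smul _)
  have := hh.eq_zero_of_qCoeff_eq_zero (fun m => by
    rw [NiceAtInfty.qCoeff_sub hfσ (hf.smul _), NiceAtInfty.qCoeff_smul _ hf]
    have h1 := hGq (m * p)
    rw [hG0] at h1
    have h0 : ModularFormClass.qCoeff (0 : ℍ → ℂ) (m * p) = 0 := by
      unfold ModularFormClass.qCoeff
      rw [qExpansion_zero]; simp
    rw [h0, if_pos (dvd_mul_left p m), if_pos (dvd_mul_left p m),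
      Nat.mul_div_cancel _ hp.pos] at h1
    exact h1.symm)
  exact sub_eq_zero.mp this

/-- **(N0) The nebentypus is forced**: under the S48 hypotheses, `f ∣ σ = ε(σ₁₁) f` for every
`σ ∈ Γ₀(N)`. -/
theorem slash_eq_of_mem_Gamma0 {σ : SL(2, ℤ)} (hσ : σ ∈ Gamma0 N) :
    (f : ℍ → ℂ) ∣[(1 : ℤ)] mapGL ℝ σ = ε ((σ 1 1 : ℤ) : ZMod N) • (f : ℍ → ℂ) := by
  have hσ0 : (N : ℤ) ∣ σ 1 0 := (ZMod.intCast_zmod_eq_zero_iff_dvd _ _).mp (Gamma0_mem.mp hσ)
  have hunit : IsUnit (((σ 1 1 : ℤ) : ZMod N)) :=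
    IsUnit.of_mul_eq_one _ (by rw [mul_comm]; exact cast_zero_zero_mul_one_one hσ0)
  obtain ⟨p, hpN, hp, hpa⟩ := Nat.forall_exists_prime_gt_and_eq_mod hunit N
  have hpN' : ¬ p ∣ N := fun h =>
    absurd (Nat.le_of_dvd (Nat.pos_of_ne_zero (NeZero.ne N)) h) (not_le.mpr hpN)
  rw [← hpa]
  exact slash_eq_of_prime ε f hT hp hpN' (by omega) hσ0 hpa.symm

/-- Under the S48 hypotheses `f` is a `T_p`-eigenform for every prime `p ∤ N`. -/
theorem heckeT1_eq_smul {p : ℕ} (hp : p.Prime) (hpN : ¬ p ∣ N)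
    {σ : SL(2, ℤ)} (hσ0 : (N : ℤ) ∣ σ 1 0) (hσ1 : ((σ 1 1 : ℤ) : ZMod N) = (p : ZMod N)) :
    heckeT1 1 p σ f = ModularFormClass.qCoeff f p • (f : ℍ → ℂ) := by
  have hf := nice_cusp f
  have hfσ := nice_cusp_slash f hσ0
  have hσ : σ ∈ Gamma0 N := Gamma0_mem.mpr ((ZMod.intCast_zmod_eq_zero_iff_dvd _ _).mpr hσ0)
  refine (hf.heckeT1 1 p σ hfσ).ext_qCoeff (hf.smul _) fun n => ?_
  rw [qCoeff_heckeT1 hf 1 hp.ne_zero σ hfσ, NiceAtInfty.qCoeff_smul _ hf,
    slash_eq_of_mem_Gamma0 ε f hT hσ, hσ1, NiceAtInfty.qCoeff_smul _ hf]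
  have := hT p hp hpN n
  rw [mul_comm p n] at this
  simp only [sub_self, zpow_zero, one_mul]
  rw [← this]
  split_ifs <;> ring

end Nebentypus

end Fermat.Agent.DS.N0
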