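import Mathlib

/-!
# S48 (Deligne–Serre), node (N0), part A: rigidity for elliptic elements of infinite order

`eq_zero_of_slash_elliptic` : a continuous `G : ℍ → ℂ` with `G ∣[k] δ = G`, `k` odd, where
`δ = [a, b; c, d] ∈ SL₂(ℝ)` has trace `2 cos θ` with `θ / 2π` irrational, is identically zero.

Proof: the one-parameter group `κ φ = (sin φ / sin θ) δ - (sin (φ - θ) / sin θ) 1` satisfies
`κ (φ + θ) = κ φ * δ`, `κ 0 = 1`, `κ π = -1`, `κ (φ + 2π) = κ φ`; the closed set
`{φ | G ∣[k] κ φ = G}` contains the dense subgroup `⟨θ, 2π⟩`, hence `π`; and `G ∣[k] (-1) = -G`.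
Mathlib only.
-/

namespace Fermat.Agent.DS.N0

open UpperHalfPlane Real
open scoped ModularForm MatrixGroups

/-- a real `2 × 2` matrix of determinant one, as an element of `GL (Fin 2) ℝ`. -/
noncomputable def glOfDetOne (a b c d : ℝ) (h : a * d - b * c = 1) : GL (Fin 2) ℝ :=
  Matrix.GeneralLinearGroup.mkOfDetNeZero !![a, b; c, d]
    (by rw [Matrix.det_fin_two_of, h]; exact one_ne_zero)

@[simp] theorem val_glOfDetOne (a b c d : ℝ) (h : a * d - b * c = 1) :
    ((glOfDetOne a b c d h : GL (Fin 2) ℝ) : Matrix (Fin 2) (Fin 2) ℝ) = !![a, b; c, d] := rfl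

theorem det_glOfDetOne (a b c d : ℝ) (h : a * d - b * c = 1) :
    ((glOfDetOne a b c d h).det : ℝ) = 1 := by
  rw [Matrix.GeneralLinearGroup.val_det_apply, val_glOfDetOne, Matrix.det_fin_two_of, h]

theorem glOfDetOne_ext {a b c d a' b' c' d' : ℝ} (h : a * d - b * c = 1)
    (h' : a' * d' - b' * c' = 1) (ha : a = a') (hb : b = b') (hc : c = c') (hd : d = d') :
    glOfDetOne a b c d h = glOfDetOne a' b' c' d' h' := by
  subst ha hb hc hd; rfl

theorem glOfDetOne_mul (a b c d a' b' c' d' : ℝ) (h : a * d - b * c = 1)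
    (h' : a' * d' - b' * c' = 1) :
    glOfDetOne a b c d h * glOfDetOne a' b' c' d' h' =
      glOfDetOne (a * a' + b * c') (a * b' + b * d') (c * a' + d * c') (c * b' + d * d')
        (by linear_combination (a' * d' - b' * c') * h + h') := by
  apply Units.ext
  rw [Units.val_mul, val_glOfDetOne, val_glOfDetOne, val_glOfDetOne]
  ext i j
  fin_cases i <;> fin_cases j <;> simp [Matrix.mul_apply, Fin.sum_univ_two]

theorem glOfDetOne_one : glOfDetOne 1 0 0 1 (by norm_num) = 1 := by
  apply Units.ext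
  rw [val_glOfDetOne]
  ext i j
  fin_cases i <;> fin_cases j <;> simp

theorem slash_glOfDetOne_apply (k : ℤ) (G : ℍ → ℂ) (a b c d : ℝ) (h : a * d - b * c = 1) (τ : ℍ) :
    (G ∣[k] glOfDetOne a b c d h) τ =
      G (glOfDetOne a b c d h • τ) * ((c : ℂ) * τ + d) ^ (-k) := by
  have hdet : (0 : ℝ) < ((glOfDetOne a b c d h).det : ℝ) := by
    rw [det_glOfDetOne]; exact one_pos
  rw [ModularForm.slash_apply, UpperHalfPlane.σ, if_pos hdet, det_glOfDetOne]
  simp [UpperHalfPlane.denom]

theorem coe_glOfDetOne_smul (a b c d : ℝ) (h : a * d - b * c = 1) (τ : ℍ) :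
    ((glOfDetOne a b c d h • τ : ℍ) : ℂ) = ((a : ℂ) * τ + b) / ((c : ℂ) * τ + d) := by
  have hdet : (0 : ℝ) < ((glOfDetOne a b c d h).det : ℝ) := by
    rw [det_glOfDetOne]; exact one_pos
  rw [UpperHalfPlane.coe_smul_of_det_pos hdet]
  simp [UpperHalfPlane.num, UpperHalfPlane.denom]

/-- slashing with `-1` in odd weight is negation -/
theorem slash_neg_one_of_odd (k : ℤ) (hk : Odd k) (G : ℍ → ℂ) :
    G ∣[k] glOfDetOne (-1) 0 0 (-1) (by norm_num) = -G := by
  funext τ
  rw [slash_glOfDetOne_apply]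
  have h1 : glOfDetOne (-1) 0 0 (-1) (by norm_num) • τ = τ := by
    apply UpperHalfPlane.ext
    rw [coe_glOfDetOne_smul]
    push_cast
    have : (τ : ℂ) ≠ 0 := τ.ne_zero
    field_simp
    ring
  rw [h1]
  push_cast
  simp only [zero_mul, zero_add, Pi.neg_apply]
  rw [zpow_neg, hk.neg_one_zpow]
  ring

section Kappa

variable {a b c d θ : ℝ}

theorem sin_ne_zero_of_irrational (hirr : Irrational (θ / (2 * π))) : sin θ ≠ 0 := by
  intro h
  obtain ⟨n, hn⟩ := Real.sin_eq_zero_iff.mp h
  apply hirr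
  refine ⟨(n : ℚ) / 2, ?_⟩
  rw [← hn]
  push_cast
  field_simp

theorem kappa_det_aux (hdet : a * d - b * c = 1) (htr : a + d = 2 * cos θ) (hs : sin θ ≠ 0)
    (φ : ℝ) :
    (sin φ / sin θ * a - sin (φ - θ) / sin θ) * (sin φ / sin θ * d - sin (φ - θ) / sin θ) -
      (sin φ / sin θ * b) * (sin φ / sin θ * c) = 1 := by
  have key : sin φ ^ 2 - 2 * cos θ * sin φ * sin (φ - θ) + sin (φ - θ) ^ 2 = sin θ ^ 2 := by
    rw [sin_sub]
    linear_combination (-(sin φ) ^ 2) * Real.sin_sq_add_cos_sq θ +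
      (sin θ) ^ 2 * Real.sin_sq_add_cos_sq φ
  have h2 : (sin φ / sin θ * a - sin (φ - θ) / sin θ) * (sin φ / sin θ * d - sin (φ - θ) / sin θ) -
      (sin φ / sin θ * b) * (sin φ / sin θ * c) =
      (sin φ ^ 2 * (a * d - b * c) - sin φ * sin (φ - θ) * (a + d) + sin (φ - θ) ^ 2) /
        sin θ ^ 2 := by
    field_simp
    ring
  rw [h2, hdet, htr, div_eq_one_iff_eq (pow_ne_zero 2 hs)]
  linear_combination key

/-- the one-parameter group through the elliptic element `[a, b; c, d]`. -/
noncomputable def kappa (hdet : a * d - b * c = 1) (htr : a + d = 2 * cos θ) (hs : sin θ ≠ 0)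
    (φ : ℝ) : GL (Fin 2) ℝ :=
  glOfDetOne (sin φ / sin θ * a - sin (φ - θ) / sin θ) (sin φ / sin θ * b) (sin φ / sin θ * c)
    (sin φ / sin θ * d - sin (φ - θ) / sin θ) (kappa_det_aux hdet htr hs φ)

variable (hdet : a * d - b * c = 1) (htr : a + d = 2 * cos θ) (hs : sin θ ≠ 0)

theorem kappa_zero : kappa hdet htr hs 0 = 1 := by
  rw [← glOfDetOne_one]
  unfold kappa
  have h1 : -(-sin θ / sin θ) = 1 := by rw [neg_div, neg_neg, div_self hs]
  apply glOfDetOne_ext <;> simp [h1]

theorem kappa_theta : kappa hdet htr hs θ = glOfDetOne a b c d hdet := by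
  unfold kappa
  apply glOfDetOne_ext <;> simp [div_self hs]

theorem kappa_pi : kappa hdet htr hs π = glOfDetOne (-1) 0 0 (-1) (by norm_num) := by
  unfold kappa
  apply glOfDetOne_ext <;> simp [div_self hs, Real.sin_pi_sub]

theorem kappa_add_two_pi (φ : ℝ) : kappa hdet htr hs (φ + 2 * π) = kappa hdet htr hs φ := by
  unfold kappa
  have h1 : sin (φ + 2 * π) = sin φ := Real.sin_add_two_pi φ
  have h2 : sin (φ + 2 * π - θ) = sin (φ - θ) := by
    rw [show φ + 2 * π - θ = φ - θ + 2 * π by ring]; exact Real.sin_add_two_pi _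
  apply glOfDetOne_ext <;> rw [h1] <;> try rw [h2]

theorem kappa_mul (φ : ℝ) :
    kappa hdet htr hs φ * glOfDetOne a b c d hdet = kappa hdet htr hs (φ + θ) := by
  unfold kappa
  rw [glOfDetOne_mul]
  have hadd : sin (φ + θ) = 2 * cos θ * sin φ - sin (φ - θ) := by
    rw [sin_add, sin_sub]; ring
  have h0 : φ + θ - θ = φ := by ring
  have e1 : a * a + b * c = a * (a + d) - 1 := by linear_combination -hdet
  have e2 : c * b + d * d = d * (a + d) - 1 := by linear_combination -hdet
  apply glOfDetOne_ext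
  · rw [h0, hadd]
    field_simp
    linear_combination (sin φ) * e1 + (sin φ * a) * htr
  · rw [hadd]
    field_simp
    linear_combination (sin φ * b) * htr
  · rw [hadd]
    field_simp
    linear_combination (sin φ * c) * htr
  · rw [h0, hadd]
    field_simp
    linear_combination (sin φ) * e2 + (sin φ * d) * htr

theorem continuous_slash_kappa_apply {G : ℍ → ℂ} (hG : Continuous G) (k : ℤ) (τ : ℍ) :
    Continuous fun φ : ℝ => (G ∣[k] kappa hdet htr hs φ) τ := by
  unfold kappa
  simp only [slash_glOfDetOne_apply]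
  have hden : ∀ φ : ℝ, ((sin φ / sin θ * c : ℝ) : ℂ) * τ +
      ((sin φ / sin θ * d - sin (φ - θ) / sin θ : ℝ) : ℂ) ≠ 0 := by
    intro φ
    have := UpperHalfPlane.denom_ne_zero (kappa hdet htr hs φ) τ
    simpa [UpperHalfPlane.denom, kappa] using this
  have hcd : Continuous fun φ : ℝ => ((sin φ / sin θ * c : ℝ) : ℂ) * τ +
      ((sin φ / sin θ * d - sin (φ - θ) / sin θ : ℝ) : ℂ) := by
    fun_prop
  refine Continuous.mul ?_ (hcd.zpow₀ _ fun φ => Or.inl (hden φ))
  refine hG.comp ?_
  rw [UpperHalfPlane.isEmbedding_coe.continuous_iff]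
  have : (UpperHalfPlane.coe ∘ fun φ : ℝ =>
      glOfDetOne (sin φ / sin θ * a - sin (φ - θ) / sin θ) (sin φ / sin θ * b)
        (sin φ / sin θ * c) (sin φ / sin θ * d - sin (φ - θ) / sin θ)
        (kappa_det_aux hdet htr hs φ) • τ) = fun φ : ℝ =>
      (((sin φ / sin θ * a - sin (φ - θ) / sin θ : ℝ) : ℂ) * τ + ((sin φ / sin θ * b : ℝ) : ℂ)) /
      (((sin φ / sin θ * c : ℝ) : ℂ) * τ + ((sin φ / sin θ * d - sin (φ - θ) / sin θ : ℝ) : ℂ)) := by
    funext φ
    simp only [Function.comp_apply]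
    exact coe_glOfDetOne_smul _ _ _ _ _ τ
  rw [this]
  refine Continuous.div ?_ hcd hden
  fun_prop

end Kappa

/-- **Rigidity for elliptic elements of infinite order**: a continuous function on `ℍ` which is
invariant, in odd weight, under an element of `SL₂(ℝ)` of trace `2 cos θ` with `θ / 2π` irrational,
vanishes identically. -/
theorem eq_zero_of_slash_elliptic {G : ℍ → ℂ} (hG : Continuous G) {k : ℤ} (hk : Odd k)
    {a b c d θ : ℝ} (hdet : a * d - b * c = 1) (htr : a + d = 2 * cos θ)
    (hirr : Irrational (θ / (2 * π)))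
    (hinv : G ∣[k] glOfDetOne a b c d hdet = G) : G = 0 := by
  have hs := sin_ne_zero_of_irrational hirr
  set δ := glOfDetOne a b c d hdet with hδ
  -- the set of good parameters
  set D : Set ℝ := {φ | G ∣[k] kappa hdet htr hs φ = G} with hD
  have hDclosed : IsClosed D := by
    have : D = ⋂ τ : ℍ, {φ | (G ∣[k] kappa hdet htr hs φ) τ = G τ} := by
      ext φ
      simp only [hD, Set.mem_ofPred_eq, Set.mem_iInter]
      exact ⟨fun h τ => congrFun h τ, fun h => funext h⟩
    rw [this]
    exact isClosed_iInter fun τ =>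
      isClosed_eq (continuous_slash_kappa_apply hdet htr hs hG k τ) continuous_const
  -- injectivity of slashing
  have hinj : ∀ F : ℍ → ℂ, F ∣[k] δ = G → F = G := by
    intro F hF
    have h1 : (F ∣[k] δ) ∣[k] δ⁻¹ = (G ∣[k] δ) ∣[k] δ⁻¹ := by rw [hF, hinv]
    rwa [← SlashAction.slash_mul, ← SlashAction.slash_mul, mul_inv_cancel,
      SlashAction.slash_one, SlashAction.slash_one] at h1
  -- the subgroup of translations preserving `D`
  let S : AddSubgroup ℝ :=
    { carrier := {x | ∀ φ, φ + x ∈ D ↔ φ ∈ D}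
      zero_mem' := fun φ => by simp
      add_mem' := fun {x y} hx hy φ => by
        rw [← add_assoc]; exact (hy (φ + x)).trans (hx φ)
      neg_mem' := fun {x} hx φ => by
        have := hx (φ + -x)
        rw [neg_add_cancel_right] at this
        exact this.symm }
  have hθS : θ ∈ S := by
    intro φ
    simp only [hD, Set.mem_ofPred_eq]
    rw [← kappa_mul hdet htr hs φ, SlashAction.slash_mul]
    constructor
    · intro h; exact hinj _ h
    · intro h; rw [h]; exact hinv
  have hπS : 2 * π ∈ S := by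
    intro φ
    simp only [hD, Set.mem_ofPred_eq]
    rw [kappa_add_two_pi]
  have hle : AddSubgroup.closure {θ, 2 * π} ≤ S := by
    rw [AddSubgroup.closure_le]
    intro x hx
    rcases hx with rfl | rfl
    · exact hθS
    · exact hπS
  have h0D : (0 : ℝ) ∈ D := by
    simp only [hD, Set.mem_ofPred_eq]
    rw [kappa_zero, SlashAction.slash_one]
  have hsub : (AddSubgroup.closure {θ, 2 * π} : Set ℝ) ⊆ D := by
    intro x hx
    have := (hle hx) 0
    rw [zero_add] at this
    exact this.mpr h0D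
  have hdense : Dense D := (dense_addSubgroupClosure_pair_iff.mpr hirr).mono hsub
  have huniv : D = Set.univ := by
    rw [← hDclosed.closure_eq, hdense.closure_eq]
  have hπ : π ∈ D := by rw [huniv]; exact Set.mem_univ _
  simp only [hD, Set.mem_ofPred_eq] at hπ
  rw [kappa_pi, slash_neg_one_of_odd k hk] at hπ
  funext τ
  have := congrFun hπ τ
  simp only [Pi.neg_apply, Pi.zero_apply] at this ⊢
  have h2 : (2 : ℂ) * G τ = 0 := by linear_combination -this
  simpa using h2

end Fermat.Agent.DS.N0
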