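import Mathlib
import Fermat.Prelude.Def_ModularForm_HeckeOperator

/-!
# S48 (Deligne–Serre), node (N0), part B1: the Hecke operator `T_p` on `Γ₁(N)`

* bookkeeping of `Γ₀(N)`/`Γ₁(N)` membership on `SL(2, ℤ)` (`mem_Gamma1_iff_dvd_and`, …);
* the four commutation relations of the Hecke representatives with `SL(2, ℤ)` with the full
  lower row of the new matrix (`hm_mul_eq_hm`, `hm_mul_eq_hd`, `hd_mul_eq_hm`, `hd_mul_eq_hd`);
* `heckeT1 k p σ f = U_p f + (f ∣ σ) ∣ diag(p, 1)` for `σ ∈ Γ₀(N)`, `σ₁₁ ≡ p (N)`, and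
  `heckeT1_slash` : it preserves `Γ₁(N)`-invariance (`p ∤ N` prime);
* diamond operators `cuspSlash`, `modSlash` (slash by a normalizing element of `SL(2, ℤ)`),
  `conj_mem_Gamma1` (`Γ₀(N)` normalizes `Γ₁(N)`).
-/

namespace Fermat.Agent.DS.N0

open Matrix.SpecialLinearGroup UpperHalfPlane ModularForm CongruenceSubgroup
open scoped MatrixGroups ModularForm

/-! ### `Γ₀(N)`, `Γ₁(N)` bookkeeping on `SL(2, ℤ)` -/

theorem sl_det_eq (g : SL(2, ℤ)) : g 0 0 * g 1 1 - g 0 1 * g 1 0 = 1 := by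
  have h := g.det_coe
  rwa [Matrix.det_fin_two] at h

theorem sl_mul_apply_one_zero (A B : SL(2, ℤ)) :
    (A * B) 1 0 = A 1 0 * B 0 0 + A 1 1 * B 1 0 := by
  simp [Matrix.mul_apply, Fin.sum_univ_two]

theorem sl_mul_apply_one_one (A B : SL(2, ℤ)) :
    (A * B) 1 1 = A 1 0 * B 0 1 + A 1 1 * B 1 1 := by
  simp [Matrix.mul_apply, Fin.sum_univ_two]

theorem sl_inv_apply_one_zero (A : SL(2, ℤ)) : (A⁻¹) 1 0 = - A 1 0 := by
  rw [Matrix.SpecialLinearGroup.SL2_inv_expl]; rfl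

theorem sl_inv_apply_one_one (A : SL(2, ℤ)) : (A⁻¹) 1 1 = A 0 0 := by
  rw [Matrix.SpecialLinearGroup.SL2_inv_expl]; rfl

variable {N : ℕ}

theorem dvd_mul_apply_one_zero {A B : SL(2, ℤ)} (hA : (N : ℤ) ∣ A 1 0) (hB : (N : ℤ) ∣ B 1 0) :
    (N : ℤ) ∣ (A * B) 1 0 := by
  rw [sl_mul_apply_one_zero]
  exact dvd_add (dvd_mul_of_dvd_left hA _) (dvd_mul_of_dvd_right hB _)

theorem cast_mul_apply_one_one {A : SL(2, ℤ)} (hA : (N : ℤ) ∣ A 1 0) (B : SL(2, ℤ)) :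
    (((A * B) 1 1 : ℤ) : ZMod N) = ((A 1 1 : ℤ) : ZMod N) * ((B 1 1 : ℤ) : ZMod N) := by
  rw [sl_mul_apply_one_one]
  push_cast
  rw [(ZMod.intCast_zmod_eq_zero_iff_dvd _ _).mpr hA, zero_mul, zero_add]

theorem dvd_inv_apply_one_zero {A : SL(2, ℤ)} (hA : (N : ℤ) ∣ A 1 0) : (N : ℤ) ∣ (A⁻¹) 1 0 := by
  rw [sl_inv_apply_one_zero]; exact (dvd_neg).mpr hA

theorem cast_zero_zero_mul_one_one {A : SL(2, ℤ)} (hA : (N : ℤ) ∣ A 1 0) :
    ((A 0 0 : ℤ) : ZMod N) * ((A 1 1 : ℤ) : ZMod N) = 1 := by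
  have := congrArg (Int.cast : ℤ → ZMod N) (sl_det_eq A)
  push_cast at this
  rw [(ZMod.intCast_zmod_eq_zero_iff_dvd _ _).mpr hA, mul_zero, sub_zero] at this
  exact this

theorem mem_Gamma1_iff_dvd_and {A : SL(2, ℤ)} :
    A ∈ Gamma1 N ↔ (N : ℤ) ∣ A 1 0 ∧ ((A 1 1 : ℤ) : ZMod N) = 1 := by
  rw [Gamma1_mem]
  constructor
  · rintro ⟨-, h11, h10⟩
    exact ⟨(ZMod.intCast_zmod_eq_zero_iff_dvd _ _).mp h10, h11⟩
  · rintro ⟨h10, h11⟩
    refine ⟨?_, h11, (ZMod.intCast_zmod_eq_zero_iff_dvd _ _).mpr h10⟩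
    have := cast_zero_zero_mul_one_one h10
    rwa [h11, mul_one] at this

/-! ### Commutation of the Hecke representatives with `SL(2, ℤ)` (with full bookkeeping) -/

theorem mapGL_apply_entry (g : SL(2, ℤ)) (i j : Fin 2) :
    (mapGL ℝ g : GL (Fin 2) ℝ) i j = ((g i j : ℤ) : ℝ) := by
  simp

section commutation

variable {p : ℕ} (hp : p ≠ 0)
include hp

theorem hm_mul_eq_hm (g : SL(2, ℤ)) (j j' : ℕ) (e : ℤ)
    (he : g 0 1 + j * g 1 1 = j' * (g 0 0 + j * g 1 0) + p * e) :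
    ∃ g' : SL(2, ℤ), g' 1 0 = p * g 1 0 ∧ g' 1 1 = g 1 1 - g 1 0 * j' ∧
      heckeMatrix p j * mapGL ℝ g = mapGL ℝ g' * heckeMatrix p j' := by
  have hdet := sl_det_eq g
  refine ⟨⟨!![g 0 0 + j * g 1 0, e; p * g 1 0, g 1 1 - g 1 0 * j'], ?_⟩, rfl, rfl, ?_⟩
  · rw [Matrix.det_fin_two_of]
    linear_combination hdet + (g 1 0) * he
  · ext i j
    fin_cases i <;> fin_cases j <;>
      simp [hp, Matrix.mul_apply, Fin.sum_univ_two]
    all_goals first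
      | (have := congrArg (Int.cast : ℤ → ℝ) he; push_cast at this ⊢; linear_combination this)
      | (have := congrArg (Int.cast : ℤ → ℝ) he; push_cast at this ⊢; linear_combination -this)
      | ring1

theorem hm_mul_eq_hd (g : SL(2, ℤ)) (j : ℕ) (e : ℤ)
    (he : g 0 0 + j * g 1 0 = p * e) :
    ∃ g' : SL(2, ℤ), g' 1 0 = g 1 0 ∧ g' 1 1 = p * g 1 1 ∧
      heckeMatrix p j * mapGL ℝ g = mapGL ℝ g' * heckeDiagMatrix p := by
  have hdet := sl_det_eq g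
  refine ⟨⟨!![e, g 0 1 + j * g 1 1; g 1 0, p * g 1 1], ?_⟩, rfl, rfl, ?_⟩
  · rw [Matrix.det_fin_two_of]
    linear_combination hdet - (g 1 1) * he
  · ext i j
    fin_cases i <;> fin_cases j <;>
      simp [hp, Matrix.mul_apply, Fin.sum_univ_two]
    all_goals first
      | (have := congrArg (Int.cast : ℤ → ℝ) he; push_cast at this ⊢; linear_combination this)
      | (have := congrArg (Int.cast : ℤ → ℝ) he; push_cast at this ⊢; linear_combination -this)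
      | ring1

theorem hd_mul_eq_hm (g : SL(2, ℤ)) (j' : ℕ) (e : ℤ)
    (he : g 1 1 = g 1 0 * j' + p * e) :
    ∃ g' : SL(2, ℤ), g' 1 0 = g 1 0 ∧ g' 1 1 = e ∧
      heckeDiagMatrix p * mapGL ℝ g = mapGL ℝ g' * heckeMatrix p j' := by
  have hdet := sl_det_eq g
  refine ⟨⟨!![p * g 0 0, g 0 1 - g 0 0 * j'; g 1 0, e], ?_⟩, rfl, rfl, ?_⟩
  · rw [Matrix.det_fin_two_of]
    linear_combination hdet - (g 0 0) * he
  · ext i j
    fin_cases i <;> fin_cases j <;>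
      simp [hp, Matrix.mul_apply, Fin.sum_univ_two]
    all_goals first
      | (have := congrArg (Int.cast : ℤ → ℝ) he; push_cast at this ⊢; linear_combination this)
      | (have := congrArg (Int.cast : ℤ → ℝ) he; push_cast at this ⊢; linear_combination -this)
      | ring1

theorem hd_mul_eq_hd (g : SL(2, ℤ)) (e : ℤ) (he : g 1 0 = p * e) :
    ∃ g' : SL(2, ℤ), g' 1 0 = e ∧ g' 1 1 = g 1 1 ∧
      heckeDiagMatrix p * mapGL ℝ g = mapGL ℝ g' * heckeDiagMatrix p := by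
  have hdet := sl_det_eq g
  refine ⟨⟨!![g 0 0, p * g 0 1; e, g 1 1], ?_⟩, rfl, rfl, ?_⟩
  · rw [Matrix.det_fin_two_of]
    linear_combination hdet + (g 0 1) * he
  · ext i j
    fin_cases i <;> fin_cases j <;>
      simp [hp, Matrix.mul_apply, Fin.sum_univ_two]
    all_goals first
      | (have := congrArg (Int.cast : ℤ → ℝ) he; push_cast at this ⊢; linear_combination this)
      | (have := congrArg (Int.cast : ℤ → ℝ) he; push_cast at this ⊢; linear_combination -this)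
      | ring1

end commutation

/-! ### The Hecke operator `T_p` on `Γ₁(N)`-invariant functions -/

section reindex

variable {p : ℕ} [NeZero p]

theorem sum_range_eq_sum_zmod' {M : Type*} [AddCommMonoid M] (F : ℕ → M) :
    ∑ j ∈ Finset.range p, F j = ∑ x : ZMod p, F x.val := by
  refine Finset.sum_nbij' (fun j : ℕ ↦ (j : ZMod p)) (fun x : ZMod p ↦ x.val)
    (fun _ _ ↦ Finset.mem_univ _)
    (fun x _ ↦ Finset.mem_range.mpr x.val_lt) (fun j hj ↦ ?_) (fun x _ ↦ ?_) (fun j hj ↦ ?_)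
  · exact ZMod.val_cast_of_lt (Finset.mem_range.mp hj)
  · exact ZMod.natCast_zmod_val x
  · rw [ZMod.val_cast_of_lt (Finset.mem_range.mp hj)]

end reindex

/-- `Γ₁`-twisted Hecke representatives: `σ · diag(p, 1)` at `∞` and `[1, j; 0, p]` at `j`. -/
noncomputable def rep1 (p : ℕ) (σ : SL(2, ℤ)) (x : OnePoint (ZMod p)) : GL (Fin 2) ℝ :=
  x.elim (mapGL ℝ σ * heckeDiagMatrix p) (fun j ↦ heckeMatrix p j.val)

@[simp] theorem rep1_infty (p : ℕ) (σ : SL(2, ℤ)) :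
    rep1 p σ OnePoint.infty = mapGL ℝ σ * heckeDiagMatrix p := rfl

@[simp] theorem rep1_coe (p : ℕ) (σ : SL(2, ℤ)) (j : ZMod p) :
    rep1 p σ (j : OnePoint (ZMod p)) = heckeMatrix p j.val := rfl

/-- The Hecke operator on `Γ₁(N)`-invariant functions:
`T_p f = U_p f + (⟨p⟩ f) ∣ diag(p, 1)` where `⟨p⟩ f = f ∣ σ`, `σ ∈ Γ₀(N)` with `σ₁₁ ≡ p`. -/
noncomputable def heckeT1 (k : ℤ) (p : ℕ) (σ : SL(2, ℤ)) (f : ℍ → ℂ) : ℍ → ℂ :=
  heckeU k p f + (f ∣[k] mapGL ℝ σ) ∣[k] heckeDiagMatrix p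

theorem heckeT1_eq_sum {p : ℕ} [NeZero p] (k : ℤ) (σ : SL(2, ℤ)) (f : ℍ → ℂ) :
    heckeT1 k p σ f = ∑ x : OnePoint (ZMod p), f ∣[k] rep1 p σ x := by
  rw [heckeT1, heckeU_def, sum_range_eq_sum_zmod', add_comm, ← SlashAction.slash_mul]
  exact (Fintype.sum_option (fun x : OnePoint (ZMod p) ↦ f ∣[k] rep1 p σ x)).symm

section main

variable {p : ℕ} [Fact p.Prime]

/-- reduction of `g` mod `p`, acting on `ℙ¹(𝔽_p)` compatibly with the Hecke representatives -/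
noncomputable def redMat (p : ℕ) [Fact p.Prime] (g : SL(2, ℤ)) : GL (Fin 2) (ZMod p) :=
  Matrix.GeneralLinearGroup.mkOfDetNeZero
    !![((g 1 1 : ℤ) : ZMod p), ((g 0 1 : ℤ) : ZMod p);
       ((g 1 0 : ℤ) : ZMod p), ((g 0 0 : ℤ) : ZMod p)]
    (by
      have := congrArg (Int.cast : ℤ → ZMod p) (sl_det_eq g)
      push_cast at this
      rw [Matrix.det_fin_two_of,
        show ((g 1 1 : ℤ) : ZMod p) * ((g 0 0 : ℤ) : ZMod p) -
            ((g 0 1 : ℤ) : ZMod p) * ((g 1 0 : ℤ) : ZMod p) = 1 by linear_combination this]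
      exact one_ne_zero)

@[simp] theorem redMat_apply_zero_zero (g : SL(2, ℤ)) :
    redMat p g 0 0 = ((g 1 1 : ℤ) : ZMod p) := by simp [redMat]

@[simp] theorem redMat_apply_zero_one (g : SL(2, ℤ)) :
    redMat p g 0 1 = ((g 0 1 : ℤ) : ZMod p) := by simp [redMat]

@[simp] theorem redMat_apply_one_zero (g : SL(2, ℤ)) :
    redMat p g 1 0 = ((g 1 0 : ℤ) : ZMod p) := by simp [redMat]

@[simp] theorem redMat_apply_one_one (g : SL(2, ℤ)) :
    redMat p g 1 1 = ((g 0 0 : ℤ) : ZMod p) := by simp [redMat]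

theorem rep1_mul (hpN : ¬ p ∣ N) (σ : SL(2, ℤ)) (hσ0 : (N : ℤ) ∣ σ 1 0)
    (hσ1 : ((σ 1 1 : ℤ) : ZMod N) = (p : ZMod N)) (g : SL(2, ℤ)) (hg : g ∈ Gamma1 N)
    (x : OnePoint (ZMod p)) :
    ∃ g'' : SL(2, ℤ), g'' ∈ Gamma1 N ∧
      rep1 p σ x * mapGL ℝ g = mapGL ℝ g'' * rep1 p σ (redMat p g • x) := by
  have hp : p ≠ 0 := (Fact.out : p.Prime).ne_zero
  obtain ⟨hg0, hg1⟩ := mem_Gamma1_iff_dvd_and.mp hg
  have hg0' : ((g 1 0 : ℤ) : ZMod N) = 0 := (ZMod.intCast_zmod_eq_zero_iff_dvd _ _).mpr hg0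
  have hσ00 : ((σ 0 0 : ℤ) : ZMod N) * (p : ZMod N) = 1 := by
    rw [← hσ1]; exact cast_zero_zero_mul_one_one hσ0
  induction x using OnePoint.rec with
  | infty =>
    rw [OnePoint.smul_infty_eq_ite]
    by_cases hc : ((g 1 0 : ℤ) : ZMod p) = 0
    · rw [if_pos (by simpa using hc), rep1_infty]
      obtain ⟨e, he⟩ := (ZMod.intCast_zmod_eq_zero_iff_dvd _ _).mp hc
      obtain ⟨g', hg'0, hg'1, hmul⟩ := hd_mul_eq_hd hp g e he
      have hcop : IsCoprime (N : ℤ) (p : ℤ) :=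
        Nat.isCoprime_iff_coprime.mpr ((Nat.Prime.coprime_iff_not_dvd Fact.out).mpr hpN).symm
      have hg'N : (N : ℤ) ∣ g' 1 0 := by
        rw [hg'0]; exact hcop.dvd_of_dvd_mul_left (he ▸ hg0)
      refine ⟨σ * g' * σ⁻¹, ?_, ?_⟩
      · rw [mem_Gamma1_iff_dvd_and]
        refine ⟨dvd_mul_apply_one_zero (dvd_mul_apply_one_zero hσ0 hg'N)
          (dvd_inv_apply_one_zero hσ0), ?_⟩
        rw [cast_mul_apply_one_one (dvd_mul_apply_one_zero hσ0 hg'N),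
          cast_mul_apply_one_one hσ0, sl_inv_apply_one_one, hg'1, hg1, hσ1, mul_one, mul_comm]
        exact hσ00
      · rw [mul_assoc, hmul, map_mul, map_mul, map_inv]
        group
    · rw [if_neg (by simpa using hc), rep1_infty, rep1_coe]
      set y : ZMod p := redMat p g 0 0 / redMat p g 1 0 with hy
      obtain ⟨e, he⟩ : (p : ℤ) ∣ g 1 1 - g 1 0 * y.val := by
        rw [← ZMod.intCast_zmod_eq_zero_iff_dvd]
        push_cast
        rw [ZMod.natCast_zmod_val, hy, redMat_apply_zero_zero, redMat_apply_one_zero,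
          mul_div_cancel₀ _ hc, sub_self]
      obtain ⟨g', hg'0, hg'1, hmul⟩ := hd_mul_eq_hm hp g y.val e (by linear_combination he)
      refine ⟨σ * g', ?_, ?_⟩
      · rw [mem_Gamma1_iff_dvd_and]
        refine ⟨dvd_mul_apply_one_zero hσ0 (hg'0 ▸ hg0), ?_⟩
        rw [cast_mul_apply_one_one hσ0, hg'1, hσ1]
        have := congrArg (Int.cast : ℤ → ZMod N) he
        push_cast at this
        rw [hg1, hg0', zero_mul, sub_zero] at this
        exact this.symm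
      · rw [mul_assoc, hmul, map_mul, mul_assoc]
  | coe j =>
    rw [OnePoint.smul_some_eq_ite]
    by_cases h : redMat p g 1 0 * j + redMat p g 1 1 = 0
    · rw [if_pos h, rep1_infty, rep1_coe]
      rw [redMat_apply_one_zero, redMat_apply_one_one] at h
      obtain ⟨e, he⟩ : (p : ℤ) ∣ g 0 0 + j.val * g 1 0 := by
        rw [← ZMod.intCast_zmod_eq_zero_iff_dvd]
        push_cast
        rw [ZMod.natCast_zmod_val]
        linear_combination h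
      obtain ⟨g', hg'0, hg'1, hmul⟩ := hm_mul_eq_hd hp g j.val e he
      refine ⟨g' * σ⁻¹, ?_, ?_⟩
      · rw [mem_Gamma1_iff_dvd_and]
        refine ⟨dvd_mul_apply_one_zero (hg'0 ▸ hg0) (dvd_inv_apply_one_zero hσ0), ?_⟩
        rw [cast_mul_apply_one_one (hg'0 ▸ hg0), sl_inv_apply_one_one, hg'1]
        push_cast
        rw [hg1, mul_one, mul_comm]
        exact hσ00
      · rw [hmul, map_mul, map_inv]
        group
    · rw [if_neg h, rep1_coe, rep1_coe]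
      set y : ZMod p := (redMat p g 0 0 * j + redMat p g 0 1) /
        (redMat p g 1 0 * j + redMat p g 1 1) with hy
      obtain ⟨e, he⟩ : (p : ℤ) ∣ g 0 1 + j.val * g 1 1 - y.val * (g 0 0 + j.val * g 1 0) := by
        rw [← ZMod.intCast_zmod_eq_zero_iff_dvd]
        push_cast
        rw [ZMod.natCast_zmod_val, ZMod.natCast_zmod_val,
          show ((g 0 0 : ℤ) : ZMod p) + j * ((g 1 0 : ℤ) : ZMod p)
            = redMat p g 1 0 * j + redMat p g 1 1 by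
              rw [redMat_apply_one_zero, redMat_apply_one_one]; ring,
          hy, div_mul_cancel₀ _ h, redMat_apply_zero_zero, redMat_apply_zero_one]
        ring
      obtain ⟨g', hg'0, hg'1, hmul⟩ := hm_mul_eq_hm hp g j.val y.val e (by linear_combination he)
      refine ⟨g', ?_, hmul⟩
      rw [mem_Gamma1_iff_dvd_and]
      refine ⟨hg'0 ▸ dvd_mul_of_dvd_right hg0 _, ?_⟩
      rw [hg'1]
      push_cast
      rw [hg1, hg0', zero_mul, sub_zero]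

/-- **`T_p` preserves `Γ₁(N)`-invariance.** -/
theorem heckeT1_slash (k : ℤ) (hpN : ¬ p ∣ N) (σ : SL(2, ℤ)) (hσ0 : (N : ℤ) ∣ σ 1 0)
    (hσ1 : ((σ 1 1 : ℤ) : ZMod N) = (p : ZMod N)) (f : ℍ → ℂ)
    (hf : ∀ γ ∈ Gamma1 N, f ∣[k] mapGL ℝ γ = f) (g : SL(2, ℤ)) (hg : g ∈ Gamma1 N) :
    heckeT1 k p σ f ∣[k] mapGL ℝ g = heckeT1 k p σ f := by
  have : NeZero p := ⟨(Fact.out : p.Prime).ne_zero⟩
  rw [heckeT1_eq_sum k σ f, SlashAction.sum_slash]
  calc ∑ x : OnePoint (ZMod p), (f ∣[k] rep1 p σ x) ∣[k] mapGL ℝ g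
      = ∑ x : OnePoint (ZMod p), f ∣[k] rep1 p σ (redMat p g • x) := by
        refine Finset.sum_congr rfl fun x _ ↦ ?_
        obtain ⟨g'', hg'', hmul⟩ := rep1_mul hpN σ hσ0 hσ1 g hg x
        rw [← SlashAction.slash_mul, hmul, SlashAction.slash_mul, hf _ hg'']
    _ = ∑ x : OnePoint (ZMod p), f ∣[k] rep1 p σ x :=
        Equiv.sum_comp (MulAction.toPerm (redMat p g)) (fun x ↦ f ∣[k] rep1 p σ x)

end main

/-! ### Diamond operators: slashing with a normalizing element of `SL(2, ℤ)` -/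

section diamond

variable {Γ : Subgroup (GL (Fin 2) ℝ)} [Γ.IsArithmetic] {k : ℤ}

theorem isCusp_mapGL_smul {c : OnePoint ℝ} (hc : IsCusp c Γ) (σ : SL(2, ℤ)) :
    IsCusp (mapGL ℝ σ • c) Γ := by
  rw [Subgroup.IsArithmetic.isCusp_iff_isCusp_SL2Z] at hc ⊢
  exact hc.smul_of_mem ⟨σ, rfl⟩

/-- `f ∣[k] σ` as a cusp form on the same group, for `σ ∈ SL(2, ℤ)` normalizing `Γ`. -/
noncomputable def cuspSlash (f : CuspForm Γ k) (σ : SL(2, ℤ))
    (hσ : ∀ γ ∈ Γ, mapGL ℝ σ * γ * (mapGL ℝ σ)⁻¹ ∈ Γ) : CuspForm Γ k where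
  toFun := (f : ℍ → ℂ) ∣[k] mapGL ℝ σ
  slash_action_eq' γ hγ := by
    rw [← SlashAction.slash_mul,
      show mapGL ℝ σ * γ = (mapGL ℝ σ * γ * (mapGL ℝ σ)⁻¹) * mapGL ℝ σ by group,
      SlashAction.slash_mul, SlashInvariantFormClass.slash_action_eq f _ (hσ γ hγ)]
  holo' := (CuspFormClass.holo f).slash k _
  zero_at_cusps' {c} hc := by
    rw [← OnePoint.IsZeroAt.smul_iff]
    exact CuspFormClass.zero_at_cusps f (isCusp_mapGL_smul hc σ)

@[simp] theorem coe_cuspSlash (f : CuspForm Γ k) (σ : SL(2, ℤ))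
    (hσ : ∀ γ ∈ Γ, mapGL ℝ σ * γ * (mapGL ℝ σ)⁻¹ ∈ Γ) :
    (cuspSlash f σ hσ : ℍ → ℂ) = (f : ℍ → ℂ) ∣[k] mapGL ℝ σ := rfl

/-- `f ∣[k] σ` as a modular form on the same group, for `σ ∈ SL(2, ℤ)` normalizing `Γ`. -/
noncomputable def modSlash (f : ModularForm Γ k) (σ : SL(2, ℤ))
    (hσ : ∀ γ ∈ Γ, mapGL ℝ σ * γ * (mapGL ℝ σ)⁻¹ ∈ Γ) : ModularForm Γ k where
  toFun := (f : ℍ → ℂ) ∣[k] mapGL ℝ σ
  slash_action_eq' γ hγ := by
    rw [← SlashAction.slash_mul,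
      show mapGL ℝ σ * γ = (mapGL ℝ σ * γ * (mapGL ℝ σ)⁻¹) * mapGL ℝ σ by group,
      SlashAction.slash_mul, SlashInvariantFormClass.slash_action_eq f _ (hσ γ hγ)]
  holo' := (ModularFormClass.holo f).slash k _
  bdd_at_cusps' {c} hc := by
    rw [← OnePoint.IsBoundedAt.smul_iff]
    exact ModularFormClass.bdd_at_cusps f (isCusp_mapGL_smul hc σ)

@[simp] theorem coe_modSlash (f : ModularForm Γ k) (σ : SL(2, ℤ))
    (hσ : ∀ γ ∈ Γ, mapGL ℝ σ * γ * (mapGL ℝ σ)⁻¹ ∈ Γ) :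
    (modSlash f σ hσ : ℍ → ℂ) = (f : ℍ → ℂ) ∣[k] mapGL ℝ σ := rfl

end diamond

/-- `Γ₀(N)` normalizes `Γ₁(N)`. -/
theorem conj_mem_Gamma1 {σ : SL(2, ℤ)} (hσ0 : (N : ℤ) ∣ σ 1 0) {γ : SL(2, ℤ)}
    (hγ : γ ∈ Gamma1 N) : σ * γ * σ⁻¹ ∈ Gamma1 N := by
  obtain ⟨hγ0, hγ1⟩ := mem_Gamma1_iff_dvd_and.mp hγ
  rw [mem_Gamma1_iff_dvd_and]
  refine ⟨dvd_mul_apply_one_zero (dvd_mul_apply_one_zero hσ0 hγ0) (dvd_inv_apply_one_zero hσ0), ?_⟩
  rw [cast_mul_apply_one_one (dvd_mul_apply_one_zero hσ0 hγ0), cast_mul_apply_one_one hσ0,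
    sl_inv_apply_one_one, hγ1, mul_one, mul_comm]
  exact cast_zero_zero_mul_one_one hσ0

theorem conj_mem_Gamma1_GL {σ : SL(2, ℤ)} (hσ0 : (N : ℤ) ∣ σ 1 0) :
    ∀ γ ∈ ((Gamma1 N : Subgroup SL(2, ℤ)) : Subgroup (GL (Fin 2) ℝ)),
      mapGL ℝ σ * γ * (mapGL ℝ σ)⁻¹ ∈ ((Gamma1 N : Subgroup SL(2, ℤ)) : Subgroup (GL (Fin 2) ℝ)) := by
  rintro _ ⟨γ, hγ, rfl⟩
  refine ⟨σ * γ * σ⁻¹, conj_mem_Gamma1 hσ0 hγ, ?_⟩
  rw [map_mul, map_mul, map_inv]

end Fermat.Agent.DS.N0
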