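import Fermat.Agent.DS.N0.Nebentypus

/-!
# S48 (Deligne–Serre), node (N0), complement: parity

* `slash_neg_one_mapGL` : `f ∣[k] (-1) = -f` for odd `k`;
* `eq_zero_of_neg_one_mem` : a slash-invariant function of odd weight for a group containing `-1`
  vanishes; `cuspForm_eq_zero_of_le_two` : `S_k(Γ₁(N)) = 0` for `N ≤ 2`, `k` odd;
* `false_of_le_two` : the S48 hypotheses are contradictory for `N ≤ 2`;
* `eps_neg_one` : under the S48 hypotheses `ε (-1) = -1` (the nebentypus is odd).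
-/

namespace Fermat.Agent.DS.N0

open Matrix.SpecialLinearGroup UpperHalfPlane ModularForm CongruenceSubgroup
open scoped MatrixGroups ModularForm

theorem mapGL_neg_one : mapGL ℝ (-1 : SL(2, ℤ)) = glOfDetOne (-1) 0 0 (-1) (by norm_num) := by
  apply Units.ext
  rw [val_glOfDetOne]
  ext i j
  fin_cases i <;> fin_cases j <;> simp

theorem slash_neg_one_mapGL {k : ℤ} (hk : Odd k) (G : ℍ → ℂ) :
    G ∣[k] mapGL ℝ (-1 : SL(2, ℤ)) = -G := by
  rw [mapGL_neg_one, slash_neg_one_of_odd k hk]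

theorem eq_zero_of_neg_one_slash {k : ℤ} (hk : Odd k) {G : ℍ → ℂ}
    (h : G ∣[k] mapGL ℝ (-1 : SL(2, ℤ)) = G) : G = 0 := by
  rw [slash_neg_one_mapGL hk] at h
  funext τ
  have := congrFun h τ
  simp only [Pi.neg_apply, Pi.zero_apply] at this ⊢
  have h2 : (2 : ℂ) * G τ = 0 := by linear_combination -this
  simpa using h2

theorem neg_one_mem_Gamma1 {N : ℕ} (hN : N = 1 ∨ N = 2) : (-1 : SL(2, ℤ)) ∈ Gamma1 N := by
  rw [mem_Gamma1_iff_dvd_and]
  constructor
  · simp
  · rcases hN with rfl | rfl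
    · exact Subsingleton.elim _ _
    · simp only [Matrix.SpecialLinearGroup.coe_neg, Matrix.SpecialLinearGroup.coe_one,
        Matrix.neg_apply, Matrix.one_apply_eq, Int.cast_neg, Int.cast_one]
      decide

theorem cuspForm_eq_zero_of_le_two {N : ℕ} (hN : N = 1 ∨ N = 2) {k : ℤ} (hk : Odd k)
    (f : CuspForm (Gamma1 N) k) : (f : ℍ → ℂ) = 0 :=
  eq_zero_of_neg_one_slash hk (cusp_slash_Gamma1 f (neg_one_mem_Gamma1 hN))

section S48

variable {N : ℕ} [NeZero N] (ε : DirichletCharacter ℂ N) (f : CuspForm (Gamma1 N) 1)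
  (hf₁ : ModularFormClass.qCoeff f 1 = 1)

include hf₁

omit [NeZero N] in
theorem coe_ne_zero_of_qCoeff_one : (f : ℍ → ℂ) ≠ 0 := by
  intro h
  rw [h] at hf₁
  have h0 : ModularFormClass.qCoeff (0 : ℍ → ℂ) 1 = 0 := by
    unfold ModularFormClass.qCoeff
    rw [qExpansion_zero]; simp
  rw [h0] at hf₁
  exact zero_ne_one hf₁

omit [NeZero N] in
/-- the S48 hypotheses are contradictory at levels `1` and `2` -/
theorem false_of_le_two (hN : N = 1 ∨ N = 2) : False :=
  coe_ne_zero_of_qCoeff_one f hf₁ (cuspForm_eq_zero_of_le_two hN odd_one f)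

variable (hT : ∀ p : ℕ, p.Prime → ¬ p ∣ N → ∀ n : ℕ,
    ModularFormClass.qCoeff f (p * n) +
        ε (p : ZMod N) * (if p ∣ n then ModularFormClass.qCoeff f (n / p) else 0) =
      ModularFormClass.qCoeff f p * ModularFormClass.qCoeff f n)

include hT

/-- **The nebentypus is odd.** -/
theorem eps_neg_one : ε (-1) = -1 := by
  have hmem : (-1 : SL(2, ℤ)) ∈ Gamma0 N := by
    rw [Gamma0_mem]; simp
  have h1 := slash_eq_of_mem_Gamma0 ε f hT hmem
  rw [slash_neg_one_mapGL odd_one] at h1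
  have h11 : (((-1 : SL(2, ℤ)) 1 1 : ℤ) : ZMod N) = -1 := by simp
  rw [h11] at h1
  -- compare first `q`-coefficients
  have hf := nice_cusp f
  have h2 : ModularFormClass.qCoeff (-(f : ℍ → ℂ)) 1 =
      ModularFormClass.qCoeff (ε (-1) • (f : ℍ → ℂ)) 1 := by rw [h1]
  have hneg : -(f : ℍ → ℂ) = (-1 : ℂ) • (f : ℍ → ℂ) := by simp
  rw [hneg, NiceAtInfty.qCoeff_smul _ hf, NiceAtInfty.qCoeff_smul _ hf, hf₁] at h2
  simpa using h2.symm

end S48

end Fermat.Agent.DS.N0
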